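import Mathlib

/-!
# S26, leaf HARTOGS (helper289): algebraic Hartogs lemma — Mathlib only

For a noetherian integrally closed domain `R` with fraction field `K`:

* `height_eq_one_of_colon` : a prime `P = (bR : d)` (`b ≠ 0`) has height one
  (associated primes of principal ideals have height one);
* `isDiscreteValuationRing_atPrime_of_height_eq_one` : `R_P` is a DVR for `P` of height one;
* `hartogs` : an element `x : K` lying in `R_P` for every prime `P` of height one lies in `R`;
* `iInf_heightOne_localization_eq_bot` : the same statement as an equality of subalgebras of `K`,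
  `⨅ P (height one), R_P = ⊥` (cf. Mathlib `PrimeSpectrum.iInf_localization_eq_bot`).

Proof of the first: in the local ring `A = R_P` with maximal ideal `m`, `y = d / b` satisfies
`y • m ⊆ A` and `y ∉ A`.  If `y • m ⊆ m` then `y` is integral over `A`
(`isIntegral_of_smul_mem_submodule`), hence `y ∈ A`; so `y • m = A`, `m` is principal, and Krull's
principal ideal theorem gives `ht m ≤ 1`.
-/

set_option autoImplicit false
set_option linter.style.haveILetI false

namespace Fermat.Agent.S26.Hartogs.H289

open Ideal

/-- In a noetherian integrally closed local domain `A`, if `b ≠ 0`, `b ∤ d` and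
`b ∣ t * d` for all `t` in the maximal ideal, then the maximal ideal is principal. -/
theorem maximalIdeal_eq_span_of_colon {A : Type*} [CommRing A] [IsDomain A] [IsLocalRing A]
    [IsNoetherianRing A] [IsIntegrallyClosed A] (b d : A) (hb : b ≠ 0) (hd : ¬ b ∣ d)
    (hm : ∀ t ∈ IsLocalRing.maximalIdeal A, b ∣ t * d) :
    ∃ π : A, IsLocalRing.maximalIdeal A = Ideal.span {π} := by
  classical
  by_cases hcase : ∃ t ∈ IsLocalRing.maximalIdeal A, ∃ r : A, t * d = b * r ∧ IsUnit r
  · -- `m = (t)`
    obtain ⟨t, ht, r, htr, hr⟩ := hcase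
    refine ⟨t, le_antisymm ?_ ?_⟩
    · intro t' ht'
      obtain ⟨r', hr'⟩ := hm t' ht'
      obtain ⟨u, rfl⟩ := hr
      rw [Ideal.mem_span_singleton]
      refine ⟨r' * ↑u⁻¹, ?_⟩
      have h1 : b * (↑u * t') = b * (t * r') := by
        calc b * (↑u * t') = (t * d) * t' := by rw [htr]; ring
          _ = t * (t' * d) := by ring
          _ = t * (b * r') := by rw [hr']
          _ = b * (t * r') := by ring
      have h2 : (↑u : A) * t' = t * r' := mul_left_cancel₀ hb h1
      calc t' = ↑u⁻¹ * (↑u * t') := by rw [← mul_assoc, Units.inv_mul, one_mul]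
        _ = ↑u⁻¹ * (t * r') := by rw [h2]
        _ = t * (r' * ↑u⁻¹) := by ring
    · rw [Ideal.span_le, Set.singleton_subset_iff]
      exact ht
  · -- `y = d / b` is integral over `A`, hence in `A`: contradiction
    exfalso
    apply hd
    have hcase' : ∀ t ∈ IsLocalRing.maximalIdeal A, ∀ r : A, t * d = b * r →
        r ∈ IsLocalRing.maximalIdeal A := by
      intro t ht r htr
      by_contra hr
      exact hcase ⟨t, ht, r, htr, by
        by_contra hu
        exact hr ((IsLocalRing.mem_maximalIdeal r).2 hu)⟩
    have hbm : b ∈ IsLocalRing.maximalIdeal A := by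
      rw [IsLocalRing.mem_maximalIdeal, mem_nonunits_iff]
      intro hu
      exact hd (hu.dvd)
    let L := FractionRing A
    have hinj : Function.Injective (algebraMap A L) := IsFractionRing.injective A L
    have hbL : algebraMap A L b ≠ 0 := fun h => hb (hinj (h.trans (map_zero _).symm))
    let y : L := algebraMap A L d / algebraMap A L b
    let N : Submodule A L := Submodule.map (Algebra.linearMap A L) (IsLocalRing.maximalIdeal A)
    have hN : N ≠ ⊥ := by
      intro h
      have : algebraMap A L b ∈ N := ⟨b, hbm, rfl⟩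
      rw [h, Submodule.mem_bot] at this
      exact hbL this
    have hN' : N.FG := Submodule.FG.map _ (IsNoetherian.noetherian _)
    have hy : ∀ n ∈ N, y • n ∈ N := by
      rintro _ ⟨t, ht, rfl⟩
      obtain ⟨r, hr⟩ := hm t ht
      refine ⟨r, hcase' t ht r hr, ?_⟩
      show algebraMap A L r = y * algebraMap A L t
      have : algebraMap A L t * algebraMap A L d = algebraMap A L b * algebraMap A L r := by
        rw [← map_mul, ← map_mul, hr]
      show algebraMap A L r = algebraMap A L d / algebraMap A L b * algebraMap A L t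
      rw [div_mul_eq_mul_div, eq_div_iff hbL]
      linear_combination -this
    have hint : IsIntegral A y := isIntegral_of_smul_mem_submodule N hN hN' y hy
    obtain ⟨r₀, hr₀⟩ := IsIntegrallyClosed.isIntegral_iff.1 hint
    refine ⟨r₀, hinj ?_⟩
    rw [map_mul, hr₀]
    show algebraMap A L d = algebraMap A L b * (algebraMap A L d / algebraMap A L b)
    rw [mul_comm, div_mul_cancel₀ _ hbL]

variable {R : Type*} [CommRing R] [IsDomain R] [IsNoetherianRing R] [IsIntegrallyClosed R]

/-- **Associated primes of principal ideals have height one** (noetherian normal domain):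
a prime of the form `P = (bR : d)`, `b ≠ 0`, has height one. -/
theorem height_eq_one_of_colon (P : Ideal R) [hP : P.IsPrime] (b d : R) (hb : b ≠ 0)
    (hPd : ∀ r : R, r ∈ P ↔ b ∣ r * d) : P.height = 1 := by
  classical
  let A := Localization.AtPrime P
  have hle : P.primeCompl ≤ nonZeroDivisors R := P.primeCompl_le_nonZeroDivisors
  haveI : IsDomain A := IsLocalization.isDomain_localization hle
  haveI : IsNoetherianRing A := IsLocalization.isNoetherianRing P.primeCompl A inferInstance
  haveI : IsIntegrallyClosed A := isIntegrallyClosed_of_isLocalization A P.primeCompl hle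
  have hinj : Function.Injective (algebraMap R A) := IsLocalization.injective A hle
  have hbP : b ∈ P := (hPd b).2 ⟨d, rfl⟩
  -- hypotheses of the local lemma
  have hb' : algebraMap R A b ≠ 0 := fun h => hb (hinj (h.trans (map_zero _).symm))
  have hd' : ¬ algebraMap R A b ∣ algebraMap R A d := by
    rintro ⟨z, hz⟩
    obtain ⟨c, s, rfl⟩ := IsLocalization.exists_mk'_eq P.primeCompl z
    have h1 : algebraMap R A d * algebraMap R A s = algebraMap R A b * algebraMap R A c := by
      rw [hz, mul_assoc, IsLocalization.mk'_spec]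
    rw [← map_mul, ← map_mul] at h1
    have h2 : d * s = b * c := hinj h1
    exact s.2 ((hPd s).2 ⟨c, by rw [mul_comm, h2]⟩)
  have hm' : ∀ t ∈ IsLocalRing.maximalIdeal A, algebraMap R A b ∣ t * algebraMap R A d := by
    intro t ht
    obtain ⟨r, s, rfl⟩ := IsLocalization.exists_mk'_eq P.primeCompl t
    have hr : r ∈ P := (IsLocalization.AtPrime.mk'_mem_maximal_iff A P r s).1 ht
    obtain ⟨c, hc⟩ := (hPd r).1 hr
    refine ⟨IsLocalization.mk' A c s, ?_⟩
    rw [IsLocalization.mk'_eq_mul_mk'_one (x := r), IsLocalization.mk'_eq_mul_mk'_one (x := c)]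
    have hrc : algebraMap R A r * algebraMap R A d = algebraMap R A b * algebraMap R A c := by
      rw [← map_mul, ← map_mul, hc]
    linear_combination (IsLocalization.mk' A 1 s) * hrc
  obtain ⟨π, hπ⟩ := maximalIdeal_eq_span_of_colon (algebraMap R A b) (algebraMap R A d) hb' hd' hm'
  -- Krull
  have hmin : IsLocalRing.maximalIdeal A ∈ (Ideal.span {π}).minimalPrimes := by
    rw [← hπ]
    exact Ideal.minimalPrimes_eq_subsingleton_self (I := IsLocalRing.maximalIdeal A) ▸ rfl
  haveI : (Ideal.span {π}).IsPrincipal := ⟨π, rfl⟩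
  have h1 : (IsLocalRing.maximalIdeal A).height ≤ 1 :=
    Ideal.height_le_one_of_isPrincipal_of_mem_minimalPrimes _ _ hmin
  have h2 : ((IsLocalRing.maximalIdeal A).height : WithBot ℕ∞) = (P.height : WithBot ℕ∞) := by
    rw [IsLocalRing.maximalIdeal_height_eq_ringKrullDim,
      IsLocalization.AtPrime.ringKrullDim_eq_height P A]
  have h3 : P.height ≤ 1 := by
    have := WithBot.coe_injective h2
    rw [← this]
    exact h1
  have h4 : P.height ≠ 0 := by
    rw [Ne, Ideal.height_eq_zero_iff_eq_bot]
    intro h
    rw [h, Ideal.mem_bot] at hbP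
    exact hb hbP
  exact le_antisymm h3 (Order.one_le_iff_ne_zero.2 h4)

/-- The localisation of a noetherian integrally closed domain at a prime of height one is a
discrete valuation ring. -/
theorem isDiscreteValuationRing_atPrime_of_height_eq_one (P : Ideal R) [hP : P.IsPrime]
    (hht : P.height = 1) : IsDiscreteValuationRing (Localization.AtPrime P) := by
  classical
  let A := Localization.AtPrime P
  have hle : P.primeCompl ≤ nonZeroDivisors R := P.primeCompl_le_nonZeroDivisors
  haveI : IsDomain A := IsLocalization.isDomain_localization hle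
  haveI : IsNoetherianRing A := IsLocalization.isNoetherianRing P.primeCompl A inferInstance
  haveI : IsIntegrallyClosed A := isIntegrallyClosed_of_isLocalization A P.primeCompl hle
  have hmht : (IsLocalRing.maximalIdeal A).height = 1 := by
    have h2 : ((IsLocalRing.maximalIdeal A).height : WithBot ℕ∞) = (P.height : WithBot ℕ∞) := by
      rw [IsLocalRing.maximalIdeal_height_eq_ringKrullDim,
        IsLocalization.AtPrime.ringKrullDim_eq_height P A]
    rw [WithBot.coe_injective h2, hht]
  have hmne : IsLocalRing.maximalIdeal A ≠ ⊥ := Ideal.ne_bot_of_height_eq_one hmht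
  have hnf : ¬ IsField A := fun h => hmne (IsLocalRing.isField_iff_maximalIdeal_eq.1 h)
  have key : IsIntegrallyClosed A ∧ ∃! Q : Ideal A, Q ≠ ⊥ ∧ Q.IsPrime := by
    refine ⟨inferInstance, IsLocalRing.maximalIdeal A, ⟨hmne, inferInstance⟩, ?_⟩
    rintro Q ⟨hQ0, hQ⟩
    have hQle : Q ≤ IsLocalRing.maximalIdeal A := IsLocalRing.le_maximalIdeal hQ.ne_top
    by_contra hne
    have hlt : Q < IsLocalRing.maximalIdeal A := lt_of_le_of_ne hQle hne
    have h1 : Q.height + 1 ≤ (IsLocalRing.maximalIdeal A).height :=
      Ideal.height_add_one_le_of_lt_of_isPrime hlt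
    rw [hmht] at h1
    have h0 : Q.height = 0 := by
      by_contra h
      have : 1 ≤ Q.height := Order.one_le_iff_ne_zero.2 h
      have h2 : (1 : ℕ∞) + 1 ≤ 1 := le_trans (add_le_add_left this 1) h1
      exact absurd h2 (by decide)
    exact hQ0 (Ideal.height_eq_zero_iff_eq_bot.1 h0)
  exact ((IsDiscreteValuationRing.TFAE A hnf).out 0 3).2 key

variable (K : Type*) [Field K] [Algebra R K] [IsFractionRing R K]

/-- **Algebraic Hartogs lemma.**  Let `R` be a noetherian integrally closed domain with fraction
field `K`.  If `x : K` lies in the localisation `R_P` for every prime `P` of height one, then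
`x ∈ R`. -/
theorem hartogs (x : K)
    (hx : ∀ P : Ideal R, P.IsPrime → P.height = 1 →
      ∃ a s : R, s ∉ P ∧ x * algebraMap R K s = algebraMap R K a) :
    ∃ r : R, algebraMap R K r = x := by
  classical
  have hinj : Function.Injective (algebraMap R K) := IsFractionRing.injective R K
  obtain ⟨a, b, hb0, hab⟩ := IsFractionRing.div_surjective (A := R) x
  have hb : (b : R) ≠ 0 := nonZeroDivisors.ne_zero hb0
  have hbK : algebraMap R K b ≠ 0 := fun h => hb (hinj (h.trans (map_zero _).symm))
  by_cases hdiv : b ∣ a
  · obtain ⟨c, rfl⟩ := hdiv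
    refine ⟨c, ?_⟩
    rw [← hab, map_mul]
    field_simp
  · exfalso
    -- an associated prime of `R ⧸ bR` containing the annihilator of the class of `a`
    have hne : (Ideal.Quotient.mk (Ideal.span {b}) a) ≠ 0 := by
      rw [Ne, Ideal.Quotient.eq_zero_iff_mem, Ideal.mem_span_singleton]
      exact hdiv
    obtain ⟨P, hPass, hPle⟩ := exists_le_isAssociatedPrime_of_isNoetherianRing R
      (M := R ⧸ Ideal.span {b}) _ hne
    obtain ⟨hPprime, dbar, hPeq⟩ := isAssociatedPrime_iff.1 hPass
    obtain ⟨d, rfl⟩ := Ideal.Quotient.mk_surjective dbar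
    have hmem : ∀ (e r : R), r ∈ (⊥ : Submodule R (R ⧸ Ideal.span {b})).colon
        {Ideal.Quotient.mk (Ideal.span {b}) e} ↔ b ∣ r * e := by
      intro e r
      have hsm : r • (Ideal.Quotient.mk (Ideal.span {b}) e) =
          Ideal.Quotient.mk (Ideal.span {b}) (r * e) := rfl
      rw [Submodule.mem_colon_singleton, Submodule.mem_bot, hsm,
        Ideal.Quotient.eq_zero_iff_mem, Ideal.mem_span_singleton]
    have hPd : ∀ r : R, r ∈ P ↔ b ∣ r * d := by
      intro r
      rw [hPeq]
      exact hmem d r
    have hht : P.height = 1 := height_eq_one_of_colon P b d hb hPd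
    obtain ⟨a', s, hs, hxs⟩ := hx P hPprime hht
    apply hs
    apply hPle
    rw [hmem a s]
    refine ⟨a', hinj ?_⟩
    rw [map_mul, map_mul, ← hxs, ← hab]
    field_simp

/-- **Algebraic Hartogs lemma**, subalgebra form: a noetherian integrally closed domain is the
intersection of its localisations at the primes of height one. -/
theorem iInf_heightOne_localization_eq_bot :
    (⨅ P : {P : PrimeSpectrum R // P.asIdeal.height = 1},
      Localization.subalgebra.ofField K P.1.asIdeal.primeCompl
        P.1.asIdeal.primeCompl_le_nonZeroDivisors) = ⊥ := by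
  ext x
  rw [Algebra.mem_bot, Algebra.mem_iInf]
  constructor
  · intro h
    obtain ⟨r, hr⟩ := hartogs K x (fun P hP hht => by
      obtain ⟨a, s, hs, rfl⟩ := h ⟨⟨P, hP⟩, hht⟩
      have hs' : s ∉ P := hs
      have hs0 : s ≠ 0 := fun h0 => hs' (h0 ▸ P.zero_mem)
      have hsK : algebraMap R K s ≠ 0 := fun h0 =>
        hs0 (IsFractionRing.injective R K (h0.trans (map_zero _).symm))
      exact ⟨a, s, hs', by rw [mul_assoc, inv_mul_cancel₀ hsK, mul_one]⟩)
    exact ⟨r, hr⟩
  · rintro ⟨y, rfl⟩ P
    exact ⟨y, 1, P.1.asIdeal.primeCompl.one_mem, by rw [map_one, inv_one, mul_one]⟩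

end Fermat.Agent.S26.Hartogs.H289
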